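/-
The congruence relation at the residue characteristic, prime to the level, on classes modulo `n`:
`F² - T_p F + p` takes values in the classes with power reductions at infinity.

Justification: the computation of `GalRep.kummerFrobenius`; with `X` the reduction of the `n`-th
power of a representative of `χ`, that of `T_p F χ` reduces to `U = X^p · F²(X)` by the reduction of
the Hecke series, so that of `F²χ + pχ + (n-1) T_p F χ` reduces to `U^n`.
-/
import Fermat.Agent.GalRep.Ordinary.Kernel

set_option autoImplicit false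
set_option linter.style.haveILetI false
set_option linter.unusedSectionVars false

noncomputable section

namespace Fermat.Agent.GalRep.Ordinary

open UpperHalfPlane CongruenceSubgroup
open Fermat.Agent.Galois (GQ)
open Fermat.Agent.GalRep.Level
open Fermat.Agent.GalRep.Semistable
open scoped MatrixGroups Manifold

local notation "ℚb" => AlgebraicClosure ℚ
local notation "κ" A:max => IsLocalRing.ResidueField A

variable {A : ValuationSubring (AlgebraicClosure ℚ)} {N n p : ℕ} [NeZero N] [NeZero n]
  [Fact p.Prime]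

set_option maxHeartbeats 800000 in
/-- `F² - T_p F + p` has power reductions. -/
theorem hasPowRep_congruence (hA : A.LiesOverPrime p) (hg : GoodIndex N p) {σ : GQ}
    (hσ : A.IsFrobeniusAt σ p) (χ : ParHom N (ZMod n)) :
    HasPowRep A ((kummerGalois N n).galois σ ((kummerGalois N n).galois σ χ) -
      heckeHom hg ((kummerGalois N n).galois σ χ) + p • χ) := by
  haveI : NeZero p := ⟨(Fact.out : p.Prime).ne_zero⟩
  haveI : CharP (κ A) p := charP_residue Fact.out hA
  obtain ⟨hdec, hfrob⟩ := hσ
  set K := kummerGalois N n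
  obtain ⟨F₀, f₀, hn⟩ := exists_algebraic_rep χ
  obtain ⟨c, X, hc, hX0, hX⟩ := exists_normalisation hA hn.rep hn.series
  obtain ⟨F₁, hF₁, hf₁⟩ := K.galois_spec σ χ F₀ f₀ hn.rep hn.series
  obtain ⟨F₂, hF₂, hf₂⟩ := K.galois_spec σ _ F₁ _ hF₁ hf₁
  set Fr := frobenius (κ A) p with hFr
  have hconj : ∀ {c : ℚb} {f : LaurentSeries ℚb} {F : LaurentSeries (κ A)},
      HasRed A (HahnSeries.C c * f ^ n) F →
      HasRed A (HahnSeries.C (σ c) * seriesConj σ f ^ n) (lmap Fr F) := fun {c f F} h => by
    have h' := h.conj hdec (ρ := Fr) fun x => by rw [hfrob, hFr, frobenius_def]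
    rwa [seriesConj_eq_lmap, map_mul, map_pow, lmap_C, ← seriesConj_eq_lmap] at h'
  have hX₁ := hconj hX
  have hX₂ := hconj hX₁
  -- the transfer
  have hT := heckeProd_rep hg hF₁ (isHeckeTransfer_heckeHom hg (K.galois σ χ))
  obtain ⟨uC, huC, -⟩ := hT.exists_series_one
  have hexp : expand p (NeZero.ne p) uC = seriesToC (heckeSeriesA p (seriesConj σ f₀)) := by
    have h1 := huC.refine_width one_pos p (NeZero.ne p)
    rw [one_mul] at h1
    rw [seriesToC_heckeSeriesA]
    exact h1.unique (NeZero.pos p) (hasQSeries_heckeProd hg hf₁)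
  obtain ⟨u, rfl⟩ : ∃ u, seriesToC u = uC := exists_seriesToC_eq fun j => by
    rw [← expand_coeff_mul p (NeZero.ne p) uC j, hexp]
    exact (Algebra.IsAlgebraic.isAlgebraic _).algHom qbarToC.toRatAlgHom
  have hu : expand p (NeZero.ne p) u = heckeSeriesA p (seriesConj σ f₀) :=
    seriesToC_injective (by rw [← hexp, seriesToC_eq_lmap, lmap_expand]; rfl)
  set U := X ^ p * lmap Fr (lmap Fr X) with hU
  have hured : HasRed A (HahnSeries.C (σ c ^ (p + 1)) * u ^ n) U := by
    letI : Fintype (rootsOfUnity p ℚb) := Fintype.ofFinite _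
    refine HasRed.of_expand p (NeZero.ne p) ?_
    have h := hX₁.heckeSeriesA p
    have e : heckeSeriesA p (HahnSeries.C (σ c) * seriesConj σ f₀ ^ n) =
        expand p (NeZero.ne p) (HahnSeries.C (σ c ^ (p + 1)) * u ^ n) := by
      rw [map_mul, map_pow (expand p (NeZero.ne p)) u n, hu, ← heckeSeriesA_pow, expand_series_C]
      simp only [heckeSeriesA, map_mul, map_pow, expand_series_C, twist_series_C,
        Finset.prod_mul_distrib, Finset.prod_const]
      rw [Finset.card_univ, ← Nat.card_eq_fintype_card,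
        HasEnoughRootsOfUnity.natCard_rootsOfUnity]
      ring
    rw [e] at h
    rw [hU, map_mul (expand p (NeZero.ne p)) (X ^ p), pow_char_eq_expand X]
    rw [pow_char_eq_expand (lmap Fr X)] at h
    exact h
  have hU0 : U ≠ 0 := by
    refine mul_ne_zero (pow_ne_zero _ hX0) fun h => hX0 ?_
    have hi := lmap_injective (φ := Fr) Fr.injective
    exact hi (hi (by rw [h, map_zero, map_zero]))
  refine ⟨F₂ * F₀ ^ p * heckeProd hg F₁ ^ (n - 1),
    seriesConj σ (seriesConj σ f₀) * f₀ ^ p * u ^ (n - 1),
    σ (σ c) * c ^ p * (σ c ^ (p + 1)) ^ (n - 1), U, ?_, ?_, ?_, hU0, ?_⟩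
  · have h := (hF₂.mul (hn.rep.pow p)).mul (hT.pow (n - 1))
    rwa [show K.galois σ (K.galois σ χ) + p • χ + (n - 1) • heckeHom hg (K.galois σ χ) =
        K.galois σ (K.galois σ χ) - heckeHom hg (K.galois σ χ) + p • χ by
      rw [eq_neg_of_add_eq_zero_right (add_pred_nsmul_eq_zero (heckeHom hg (K.galois σ χ)))]
      abel] at h
  · exact hasQSeries_mul_seriesToC (hasQSeries_mul_seriesToC hf₂
      (hasQSeries_pow_seriesToC hn.series p)) (hasQSeries_pow_seriesToC huC (n - 1))
  · exact mul_ne_zero (mul_ne_zero ((map_ne_zero σ).mpr ((map_ne_zero σ).mpr hc)) (pow_ne_zero _ hc))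
      (pow_ne_zero _ (pow_ne_zero _ ((map_ne_zero σ).mpr hc)))
  · have h := (hX₂.mul (hX.pow p)).mul (hured.pow (n - 1))
    rw [mul_comm (lmap Fr (lmap Fr X)), ← hU, ← pow_succ', Nat.sub_add_cancel (NeZero.pos n)] at h
    convert h using 1
    simp only [mul_pow, ← pow_mul, map_mul, map_pow]
    ring

end Fermat.Agent.GalRep.Ordinary
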