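/-
Restriction of classes from level `N` to level `p N`, `p ∤ N`: injective, commuting with Galois and
the Hecke operators, so eigen systems of level `N` give eigen systems of level `p N`.
-/
import Fermat.Agent.GalRep.Ordinary.Socle
import Fermat.Agent.GalRep.Ordinary.Transfers
import Fermat.Agent.R59.Raised.Commute

set_option autoImplicit false
set_option linter.style.haveILetI false
set_option linter.unusedSectionVars false

noncomputable section

namespace Fermat.Agent.R59.Raised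

open CongruenceSubgroup MulOpposite
open Fermat.Agent.Galois (GQ)
open Fermat.Agent.GalRep
open Fermat.Agent.GalRep.Ordinary (resR gamma0_le_of_dvd latDatum)
open Fermat.Agent.Raise (GHom zMat)
open scoped MatrixGroups IsMulCommutative

variable {N p : ℕ} [Fact p.Prime] [NeZero N]

/-- A parabolic class vanishing on `Γ₀(p N)` vanishes. -/
theorem resR_injective {A : Type} [AddCommGroup A] (hpN : ¬ p ∣ N) :
    Function.Injective (resR (A := A) (dvd_mul_left N p)) := by
  have hp : p.Prime := Fact.out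
  haveI : NeZero p := ⟨hp.ne_zero⟩
  refine (injective_iff_map_eq_zero _).mpr fun χ hχ => ?_
  let L : ℤ → SL(2, ℤ) := fun j => ⟨!![1, 0; (N : ℤ) * j, 1], by simp [Matrix.det_fin_two_of]⟩
  have hL : ∀ j, L j ∈ Gamma0 N := fun j => Gamma0_mem.mpr (by simp [L])
  have eL : ∀ (j : ℤ) (γ : SL(2, ℤ)), (L j * γ) 1 0 = (N : ℤ) * j * γ 0 0 + γ 1 0 := fun j γ => by
    show ((L j).1 * γ.1) 1 0 = _
    simp [L, Matrix.mul_apply, Fin.sum_univ_two]
  let T : SL(2, ℤ) := ⟨!![1, 1; 0, 1], by simp [Matrix.det_fin_two_of]⟩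
  have hT : T ∈ Gamma0 N := Gamma0_mem.mpr (by simp [T])
  have eT : ∀ γ : SL(2, ℤ), (T * γ) 0 0 = γ 0 0 + γ 1 0 := fun γ => by
    show (T.1 * γ.1) 0 0 = _
    simp [T, Matrix.mul_apply, Fin.sum_univ_two]
  have hpar : ∀ γ : Gamma0 N, ((γ : SL(2, ℤ)) : Matrix (Fin 2) (Fin 2) ℤ).trace ^ 2 = 4 →
      (χ : Additive (Gamma0 N) →+ A) (Additive.ofMul γ) = 0 := χ.2
  have hres : ∀ γ : Gamma0 N, (p : ℤ) ∣ (γ : SL(2, ℤ)) 1 0 →
      (χ : Additive (Gamma0 N) →+ A) (Additive.ofMul γ) = 0 := by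
    intro γ hd
    have hN : ((N : ℕ) : ℤ) ∣ (γ : SL(2, ℤ)) 1 0 := Raise.mem_gamma0_iff_dvd.mp γ.2
    have hmem : (γ : SL(2, ℤ)) ∈ Gamma0 (p * N) := Raise.mem_gamma0_iff_dvd.mpr (by
      rw [Nat.cast_mul]
      exact (Int.isCoprime_iff_gcd_eq_one.mpr (by
        rw [Int.gcd_natCast_natCast]; exact hp.coprime_iff_not_dvd.mpr hpN)).mul_dvd hd hN)
    exact DFunLike.congr_fun (congrArg Subtype.val hχ)
      (Additive.ofMul (⟨(γ : SL(2, ℤ)), hmem⟩ : Gamma0 (p * N)))
  -- classes of `Γ₀(N)` with unit upper corner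
  have hmain : ∀ γ : Gamma0 N, ¬ (p : ℤ) ∣ (γ : SL(2, ℤ)) 0 0 →
      (χ : Additive (Gamma0 N) →+ A) (Additive.ofMul γ) = 0 := by
    intro γ hd
    have hu : ((((γ : SL(2, ℤ)) 0 0 * N : ℤ)) : ZMod p) ≠ 0 := by
      rw [Ne, ZMod.intCast_zmod_eq_zero_iff_dvd]
      exact fun h => ((Nat.prime_iff_prime_int.mp hp).dvd_or_dvd h).elim hd
        fun h => hpN (Int.natCast_dvd_natCast.mp h)
    obtain ⟨j, hj⟩ := ZMod.intCast_surjective
      (-(((γ : SL(2, ℤ)) 1 0 : ℤ) : ZMod p) * ((((γ : SL(2, ℤ)) 0 0 * N : ℤ)) : ZMod p)⁻¹)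
    have h0 := hres (⟨L j, hL j⟩ * γ) (by
      rw [← ZMod.intCast_zmod_eq_zero_iff_dvd]
      show ((((L j * (γ : SL(2, ℤ))) : SL(2, ℤ)) 1 0 : ℤ) : ZMod p) = 0
      rw [eL]
      push_cast at hu hj ⊢
      obtain ⟨hu1, hu2⟩ := mul_ne_zero_iff.mp hu
      rw [hj]
      field_simp
      ring)
    have h1 := hpar ⟨L j, hL j⟩ (by simp [L, Matrix.trace_fin_two])
    rw [ofMul_mul, map_add, h1, zero_add] at h0
    exact h0
  refine Subtype.ext (AddMonoidHom.ext fun t => ?_)
  obtain ⟨γ, rfl⟩ := Additive.ofMul.surjective t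
  by_cases hd : (p : ℤ) ∣ (γ : SL(2, ℤ)) 0 0
  · have h0 := hmain (⟨T, hT⟩ * γ) (by
      show ¬ (p : ℤ) ∣ ((T * (γ : SL(2, ℤ))) : SL(2, ℤ)) 0 0
      rw [eT, dvd_add_right hd]
      intro h
      have hdet := Raise.det_two (γ : SL(2, ℤ))
      have h2 : (p : ℤ) ∣ 1 := hdet ▸ dvd_sub (hd.mul_right _) (h.mul_left _)
      exact (Nat.prime_iff_prime_int.mp hp).not_isUnit (isUnit_of_dvd_one h2))
    have h1 := hpar ⟨T, hT⟩ (by simp [T, Matrix.trace_fin_two])
    rw [ofMul_mul, map_add, h1, zero_add] at h0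
    exact h0
  · exact hmain γ hd

variable [NeZero (p * N)]

/-- Restriction of lattices. -/
def resLat : GalRep.Lat N p →ₗ[ℤ_[p]] GalRep.Lat (p * N) p where
  toFun v := ⟨(resR (dvd_mul_left N p) (toPar v)).1, (resR (dvd_mul_left N p) (toPar v)).2⟩
  map_add' _ _ := rfl
  map_smul' _ _ := rfl

theorem toPar_resLat (v : GalRep.Lat N p) :
    toPar (resLat v) = resR (dvd_mul_left N p) (toPar v) := rfl

theorem redPow_resLat (k : ℕ) (v : GalRep.Lat N p) :
    redPow k (resLat v) = resR (dvd_mul_left N p) (redPow k v) := rfl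

theorem red1_resLat [NeZero p] (v : GalRep.Lat N p) :
    GalRep.Ordinary.red1 (resLat v) = resR (dvd_mul_left N p) (GalRep.Ordinary.red1 v) := rfl

theorem resLat_injective (hpN : ¬ p ∣ N) : Function.Injective (resLat (N := N) (p := p)) :=
  fun v w h => by
    have h1 := resR_injective hpN (congrArg toPar h)
    exact Subtype.ext (congrArg (fun x => x.1) h1)

/-- The image of restriction is saturated. -/
theorem exists_smul_of_resLat [NeZero p] (hpN : ¬ p ∣ N) {k : ℕ} {v : GalRep.Lat N p}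
    {w : GalRep.Lat (p * N) p} (h : resLat v = (p ^ k : ℤ_[p]) • w) :
    ∃ u, v = (p ^ k : ℤ_[p]) • u :=
  GalRep.Ordinary.exists_smul_of_redPow_eq_zero (resR_injective hpN (by
    rw [← redPow_resLat, h, GalRep.Ordinary.redPow_smul_pow, map_zero]))

variable [NeZero p] (hred : KummerReduction N) (hred' : KummerReduction (p * N))

theorem resLat_galois (σ : GQ) (v : (latDatum (p := p) hred).L) :
    resLat ((latDatum (p := p) hred).galois σ v : GalRep.Lat N p) =
      (latDatum (p := p) hred').galois σ (resLat (v : GalRep.Lat N p)) := by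
  refine lat_ext fun k => ?_
  show redPow k (resLat (latGalois _ _ σ v)) = redPow k (latGalois _ _ σ (resLat v))
  rw [redPow_resLat]
  erw [redPow_latGalois, redPow_latGalois, redPow_resLat]
  haveI : NeZero (p ^ k) := ⟨pow_ne_zero k (NeZero.ne p)⟩
  exact GalRep.Ordinary.resR_galois _ σ _

theorem resLat_hecke (ℓ : Nat.Primes) (hℓ : ¬ (ℓ : ℕ) ∣ N) (hℓ' : ¬ (ℓ : ℕ) ∣ p * N)
    (v : GalRep.Lat N p) :
    resLat (latHecke N p ⟨ℓ, hℓ⟩ v) = latHecke (p * N) p ⟨ℓ, hℓ'⟩ (resLat v) := by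
  have e : ∀ z : GHom (Gamma0 N) ℤ_[p],
      degH 1 one_pos (by rw [mul_one]; exact dvd_mul_left N p) z =
        z.comp (Subgroup.inclusion (gamma0_le_of_dvd (dvd_mul_left N p))).toAdditive := fun z => by
    refine AddMonoidHom.ext fun t => ?_
    obtain ⟨γ, rfl⟩ := Additive.ofMul.surjective t
    refine degH_apply_of_eq one_pos _ z
      (g := Subgroup.inclusion (gamma0_le_of_dvd (dvd_mul_left N p)) γ) ?_
    show !![((1 : ℕ) : ℤ), 0; 0, 1] * zMat γ = zMat γ * !![((1 : ℕ) : ℤ), 0; 0, 1]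
    simp [← Matrix.one_fin_two]
  refine Subtype.ext ?_
  show (transferHom (goodIndex _) (v : GHom (Gamma0 N) ℤ_[p])).comp _ =
    transferHom (goodIndex _) ((v : GHom (Gamma0 N) ℤ_[p]).comp _)
  rw [← e, ← e, degH_transfer]

/-- The eigen systems of level `N` at level `p N`. -/
theorem exists_closureHom (hpN : ¬ p ∣ N) (S : Finset ℕ) :
    ∃ π : heckeClosure (latDatum (p := p) hred') (↑S : Set ℕ) →ₐ[ℤ_[p]]
        heckeClosure (latDatum (p := p) hred) (↑S : Set ℕ),
      (∀ (c : heckeClosure (latDatum (p := p) hred') (↑S : Set ℕ)) (v : (latDatum (p := p) hred).L),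
        ((c : Module.End ℤ_[p] (latDatum (p := p) hred').L)
          (resLat (v : GalRep.Lat N p)) : GalRep.Lat (p * N) p) =
        resLat (((π c : Module.End ℤ_[p] (latDatum (p := p) hred).L) v : GalRep.Lat N p))) ∧
      (∀ g : GQ, π ⟨uTrace (latDatum hred') g, uTrace_mem (latDatum hred') frobeniusPowDensity S g⟩ =
        ⟨uTrace (latDatum hred) g, uTrace_mem (latDatum hred) frobeniusPowDensity S g⟩) ∧
      ∀ (k : ℕ) (c : heckeClosure (latDatum (p := p) hred') (↑S : Set ℕ)),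
        (∃ f, (c : Module.End ℤ_[p] (latDatum (p := p) hred').L) = (p ^ k : ℤ_[p]) • f) →
        ∃ f, (π c : Module.End ℤ_[p] (latDatum (p := p) hred).L) = (p ^ k : ℤ_[p]) • f := by
  set D := latDatum (p := p) hred
  set D' := latDatum (p := p) hred'
  let R : D.L →ₗ[ℤ_[p]] D'.L := resLat
  have hR : Function.Injective R := resLat_injective hpN
  have hex : ∀ c : heckeClosure D' (↑S : Set ℕ), ∃ c' : heckeClosure D (↑S : Set ℕ),
      (c : Module.End ℤ_[p] D'.L) ∘ₗ R = R ∘ₗ (c' : Module.End ℤ_[p] D.L) := by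
    rintro ⟨c, hc⟩
    induction hc using Algebra.adjoin_induction with
    | mem x hx =>
      obtain ⟨i, rfl⟩ := hx
      have hℓ : ¬ ((i.1 : Nat.Primes) : ℕ) ∣ N := fun h => i.1.2 (h.trans (dvd_mul_left N p))
      refine ⟨heckeGen D _ ⟨⟨i.1.1, hℓ⟩, i.2⟩, LinearMap.ext fun v => ?_⟩
      show (D'.hecke _) (R v) = R (D.hecke _ v)
      show latHeckePoly _ p _ _ = resLat (latHeckePoly _ p _ _)
      rw [latHeckePoly, latHeckePoly]
      erw [polyHom_X, polyHom_X]
      exact (resLat_hecke i.1.1 hℓ i.1.2 v).symm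
    | algebraMap r =>
      exact ⟨algebraMap ℤ_[p] _ r, LinearMap.ext fun v => (map_smul R r v).symm⟩
    | add x y hx hy hx' hy' =>
      obtain ⟨a, ha⟩ := hx'
      obtain ⟨b, hb⟩ := hy'
      exact ⟨a + b, by
        show (x + y) ∘ₗ R = R ∘ₗ ((a : Module.End ℤ_[p] D.L) + (b : Module.End ℤ_[p] D.L))
        rw [LinearMap.add_comp, LinearMap.comp_add, ← ha, ← hb]⟩
    | mul x y hx hy hx' hy' =>
      obtain ⟨a, ha⟩ := hx'
      obtain ⟨b, hb⟩ := hy'
      exact ⟨a * b, by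
        show (x * y) ∘ₗ R = R ∘ₗ ((a : Module.End ℤ_[p] D.L) * (b : Module.End ℤ_[p] D.L))
        rw [Module.End.mul_eq_comp, Module.End.mul_eq_comp, LinearMap.comp_assoc, hb,
          ← LinearMap.comp_assoc, ha, LinearMap.comp_assoc]⟩
  choose π hπ using hex
  have hu : ∀ {c : heckeClosure D' (↑S : Set ℕ)} {c' : heckeClosure D (↑S : Set ℕ)},
      (c : Module.End ℤ_[p] D'.L) ∘ₗ R = R ∘ₗ (c' : Module.End ℤ_[p] D.L) → π c = c' :=
    fun {c c'} h => Subtype.ext (LinearMap.ext fun v => hR (LinearMap.congr_fun ((hπ c).symm.trans h) v))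
  have hg : ∀ g, D'.galois g ∘ₗ R = R ∘ₗ D.galois g := fun g =>
    LinearMap.ext fun v => (resLat_galois hred hred' g v).symm
  let πa : heckeClosure D' (↑S : Set ℕ) →ₐ[ℤ_[p]] heckeClosure D (↑S : Set ℕ) :=
    { toFun := π
      map_one' := hu rfl
      map_mul' := fun x y => hu (by
        rw [MulMemClass.coe_mul, MulMemClass.coe_mul, Module.End.mul_eq_comp,
          Module.End.mul_eq_comp, LinearMap.comp_assoc, hπ y, ← LinearMap.comp_assoc, hπ x,
          LinearMap.comp_assoc])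
      map_zero' := hu (by simp)
      map_add' := fun x y => hu (by
        rw [AddMemClass.coe_add, AddMemClass.coe_add, LinearMap.add_comp, LinearMap.comp_add,
          hπ x, hπ y])
      commutes' := fun r => hu (LinearMap.ext fun v => (map_smul R r v).symm) }
  refine ⟨πa, fun c v => LinearMap.congr_fun (hπ c) v, fun g => hu ?_, fun k c hc => ?_⟩
  · show uTrace D' g ∘ₗ R = R ∘ₗ uTrace D g
    rw [uTrace, uTrace, LinearMap.add_comp, LinearMap.comp_add, LinearMap.smul_comp,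
      LinearMap.comp_smul, hg, hg]
  · obtain ⟨f, hf⟩ := hc
    refine exists_smul_of_forall (D := D) fun v => ?_
    exact exists_smul_of_resLat hpN (w := f (R v)) (by
      have h1 := LinearMap.congr_fun (hπ c) v
      rw [hf] at h1
      exact h1.symm)

end Fermat.Agent.R59.Raised
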