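/-
Classes with coefficients in a finite free `ℤ_p`-algebra through their coordinates on the `p`-adic
lattice, and the endomorphisms of the lattice acting on them.
-/
import Fermat.Agent.GalRep.Lattice
import Fermat.Agent.Raise.Ops

set_option autoImplicit false
set_option linter.style.haveILetI false
set_option linter.unusedSectionVars false

noncomputable section

namespace Fermat.Agent.R59.Raised

open CongruenceSubgroup
open Fermat.Agent.GalRep (ParHom)
open Fermat.Agent.Raise (GHom)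

variable {N p : ℕ} [Fact p.Prime] [NeZero N] {O : Type} [CommRing O] [Algebra ℤ_[p] O]

local notation "P[" O' "]" => ModularCurve.Period.parabolicHoms O' (Gamma0 N) O'

/-- The coordinate of a class along a functional of the coefficients. -/
def coordC (Λ : O →ₗ[ℤ_[p]] ℤ_[p]) : P[O] →+ GalRep.Lat N p :=
  AddMonoidHom.mk' (fun z => ⟨Λ.toAddMonoidHom.comp z.1, fun γ hγ => by
      show Λ (z.1 (Additive.ofMul γ)) = 0
      rw [z.2 γ hγ, map_zero]⟩)
    fun z w => Subtype.ext (AddMonoidHom.ext fun x => map_add Λ _ _)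

theorem coordC_apply (Λ : O →ₗ[ℤ_[p]] ℤ_[p]) (z : P[O]) (x : Additive (Gamma0 N)) :
    (coordC Λ z : GHom (Gamma0 N) ℤ_[p]) x = Λ (z.1 x) := rfl

theorem coordC_smul (Λ : O →ₗ[ℤ_[p]] ℤ_[p]) (t : O) (z : P[O]) :
    coordC Λ (t • z) = coordC (Λ ∘ₗ LinearMap.mulLeft ℤ_[p] t) z := rfl

theorem coordC_add_left (Λ Λ' : O →ₗ[ℤ_[p]] ℤ_[p]) (z : P[O]) :
    coordC (Λ + Λ') z = coordC Λ z + coordC Λ' z := rfl

theorem coordC_smul_left (a : ℤ_[p]) (Λ : O →ₗ[ℤ_[p]] ℤ_[p]) (z : P[O]) :
    coordC (a • Λ) z = a • coordC Λ z := rfl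

variable [Module.Free ℤ_[p] O] [Module.Finite ℤ_[p] O]

/-- Coordinates separate classes. -/
theorem coordC_ext {z w : P[O]} (h : ∀ Λ : O →ₗ[ℤ_[p]] ℤ_[p], coordC Λ z = coordC Λ w) : z = w := by
  refine Subtype.ext (AddMonoidHom.ext fun x => ?_)
  let b := Module.Free.chooseBasis ℤ_[p] O
  refine b.ext_elem fun i => ?_
  exact DFunLike.congr_fun (congrArg Subtype.val (h (b.coord i))) x

/-- A class with coefficients from a lattice vector and a scalar. -/
def scaleC (t : O) : GalRep.Lat N p →+ P[O] :=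
  AddMonoidHom.mk' (fun v => ⟨(AddMonoidHom.mk' (fun a : ℤ_[p] => a • t) fun a b => add_smul a b t).comp v.1,
    fun γ hγ => by
      show v.1 (Additive.ofMul γ) • t = 0
      rw [v.2 γ hγ, zero_smul]⟩)
    fun v w => Subtype.ext (AddMonoidHom.ext fun x => add_smul (v.1 x) (w.1 x) t)

theorem coordC_scaleC (Λ : O →ₗ[ℤ_[p]] ℤ_[p]) (t : O) (v : GalRep.Lat N p) :
    coordC Λ (scaleC t v) = Λ t • v :=
  Subtype.ext (AddMonoidHom.ext fun x =>
    (map_smul Λ (v.1 x) t).trans (mul_comm (v.1 x) (Λ t)))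

/-- An endomorphism of the lattice on classes with coefficients. -/
def extFun (f : Module.End ℤ_[p] (GalRep.Lat N p)) (z : P[O]) : P[O] :=
  let b := Module.Free.chooseBasis ℤ_[p] O
  ∑ i, scaleC (b i) (f (coordC (b.coord i) z))

theorem coordC_extFun (f : Module.End ℤ_[p] (GalRep.Lat N p)) (Λ : O →ₗ[ℤ_[p]] ℤ_[p]) (z : P[O]) :
    coordC Λ (extFun f z) = f (coordC Λ z) := by
  let b := Module.Free.chooseBasis ℤ_[p] O
  have hΛ : coordC Λ z = ∑ i, Λ (b i) • coordC (b.coord i) z := by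
    refine Subtype.ext (AddMonoidHom.ext fun x => ?_)
    rw [Submodule.coe_sum, AddMonoidHom.finsetSum_apply]
    show Λ (z.1 x) = _
    conv_lhs => rw [← b.sum_repr (z.1 x), map_sum]
    refine Finset.sum_congr rfl fun i _ => ?_
    rw [map_smul, smul_eq_mul, mul_comm]
    rfl
  rw [extFun, map_sum, hΛ, map_sum]
  exact Finset.sum_congr rfl fun i _ => (coordC_scaleC _ _ _).trans (map_smul f _ _).symm

variable (O) in
/-- The endomorphisms of the lattice on classes with coefficients. -/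
def extC : Module.End ℤ_[p] (GalRep.Lat N p) →+* Module.End O P[O] where
  toFun f :=
    { toFun := extFun f
      map_add' := fun z w => coordC_ext fun (Λ : O →ₗ[ℤ_[p]] ℤ_[p]) => by
        rw [coordC_extFun, map_add, map_add, map_add, coordC_extFun, coordC_extFun]
      map_smul' := fun t z => coordC_ext fun (Λ : O →ₗ[ℤ_[p]] ℤ_[p]) => by
        rw [RingHom.id_apply, coordC_extFun, coordC_smul, coordC_smul, coordC_extFun] }
  map_one' := LinearMap.ext fun z => coordC_ext fun (Λ : O →ₗ[ℤ_[p]] ℤ_[p]) => coordC_extFun 1 Λ z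
  map_mul' f g := LinearMap.ext fun z => coordC_ext fun (Λ : O →ₗ[ℤ_[p]] ℤ_[p]) => by
    show coordC Λ (extFun (f * g) z) = coordC Λ (extFun f (extFun g z))
    rw [coordC_extFun, coordC_extFun, coordC_extFun, Module.End.mul_apply]
  map_zero' := LinearMap.ext fun z => coordC_ext fun (Λ : O →ₗ[ℤ_[p]] ℤ_[p]) => by
    show coordC Λ (extFun 0 z) = coordC Λ 0
    rw [coordC_extFun, map_zero, LinearMap.zero_apply]
  map_add' f g := LinearMap.ext fun z => coordC_ext fun (Λ : O →ₗ[ℤ_[p]] ℤ_[p]) => by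
    show coordC Λ (extFun (f + g) z) = coordC Λ (extFun f z + extFun g z)
    rw [coordC_extFun, map_add, coordC_extFun, coordC_extFun, LinearMap.add_apply]

theorem coordC_extC (f : Module.End ℤ_[p] (GalRep.Lat N p)) (Λ : O →ₗ[ℤ_[p]] ℤ_[p]) (z : P[O]) :
    coordC Λ (extC O f z) = f (coordC Λ z) :=
  coordC_extFun f Λ z

/-- Scalars of `ℤ_p` act as scalars. -/
theorem extC_algebraMap (a : ℤ_[p]) (z : P[O]) :
    extC O (algebraMap ℤ_[p] (Module.End ℤ_[p] (GalRep.Lat N p)) a) z = algebraMap ℤ_[p] O a • z :=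
  coordC_ext fun (Λ : O →ₗ[ℤ_[p]] ℤ_[p]) => by
    rw [coordC_extC, coordC_smul, Module.algebraMap_end_apply, ← coordC_smul_left]
    refine congrArg (fun L : O →ₗ[ℤ_[p]] ℤ_[p] => coordC L z) ?_
    refine LinearMap.ext fun t => ?_
    show a • Λ t = Λ (algebraMap ℤ_[p] O a * t)
    rw [← Algebra.smul_def, map_smul]

end Fermat.Agent.R59.Raised
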