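/-
At a level prime to `p`, on an eigen class of a system whose representation is upper triangular at
a place over `p` with unit root `α`: `α T_p = α² + p`.

Justification: with `σ` in inertia, `χ(σ) ≢ 1`, and `x` fixed by `σ` the characteristic relations of
`φ` and `φ σ` give `φ x ≡ α x` modulo the image of `σ - 1`, so the congruence relation puts
`(α² + p - α T_p) x` among the classes with power reductions modulo every `p ^ k`; restricted to
level `p N` its primitive part would give a socle vector in the kernel (`redD_eq_zero_of_socle`).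
What remains is moved by `σ` through `χ(σ)` together with all its Galois translates: zero, by
exchanging.
-/
import Fermat.Agent.R59.Raised.PRoot.Congr
import Fermat.Agent.R59.Raised.PRoot.Restrict
import Fermat.Agent.R59.Raised.PRoot.Coef
import Fermat.Agent.GalRep.Ordinary.Reduce
import Fermat.Agent.GalRep.Ordinary.NoOrdInKer
import Fermat.Agent.MCurve.Spec.Specialization

set_option autoImplicit false
set_option linter.style.haveILetI false
set_option linter.unusedSectionVars false

noncomputable section

namespace Fermat.Agent.R59.Raised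

open CongruenceSubgroup IsLocalRing MulOpposite
open Fermat.Agent.Galois (GQ)
open Fermat.Agent.Deform (Mat2 mapHom TraceNondeg)
open Fermat.Agent.GalRep
open Fermat.Agent.GalRep.Ordinary (latDatum HasPowRep powKer red1 redD gD ringAct)
open scoped MatrixGroups IsMulCommutative

attribute [local instance] GalRep.Ordinary.neZero_pow

local notation "ℚb" => AlgebraicClosure ℚ

variable {N p : ℕ} [Fact p.Prime] [NeZero p] [NeZero N] [NeZero (p * N)]
  {O : Type} [CommRing O] [IsDomain O] [IsDiscreteValuationRing O]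
  [IsAdicComplete (maximalIdeal O) O] [Finite (ResidueField O)] [Algebra ℤ_[p] O]
  [Module.Finite ℤ_[p] O] [Module.Free ℤ_[p] O]

theorem latHeckePoly_gen {N p : ℕ} [NeZero N] [Fact p.Prime] (ℓ : GoodPrime N) :
    latHeckePoly N p (MvPolynomial.X ℓ) = latHecke N p ℓ := polyHom_X _ _ _

/-- Parabolic classes with coefficients. -/
abbrev ParC (N : ℕ) (O : Type) [CommRing O] : Type :=
  ↥(ModularCurve.Period.parabolicHoms O (Gamma0 N) O)

theorem inertia_le_dec {A : ValuationSubring ℚb} {σ : GQ}
    (hσ : σ ∈ A.inertiaSubgroupIn ℚ) : σ ∈ A.decompositionSubgroup ℚ := by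
  obtain ⟨σ', -, rfl⟩ := hσ
  exact σ'.2

variable (O) in
/-- Galois on classes with coefficients. -/
def galC (τ : GQ) : Module.End O (ParC N O) :=
  extC O (latGalois (p := p) (fun k => kummerGalois N (p ^ k)) (kummerCompat N) τ)

theorem galC_mul (σ τ : GQ) (z : ParC N O) :
    galC (N := N) (p := p) O (σ * τ) z = galC (p := p) O σ (galC (p := p) O τ z) := by
  rw [galC, map_mul, map_mul]; rfl

theorem galC_one (z : ParC N O) : galC (N := N) (p := p) O 1 z = z := by
  rw [galC, map_one, map_one]; rfl

theorem galC_inv (σ : GQ) (z : ParC N O) :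
    galC (N := N) (p := p) O σ (galC (p := p) O σ⁻¹ z) = z := by
  rw [← galC_mul, mul_inv_cancel, galC_one]

/-- A class whose coordinates have power reductions modulo `p ^ k`. -/
def PowK (A : ValuationSubring ℚb) (k : ℕ) (z : ParC N O) : Prop :=
  ∀ Λ : O →ₗ[ℤ_[p]] ℤ_[p], HasPowRep A (redPow k (coordC Λ z))

variable {A : ValuationSubring (AlgebraicClosure ℚ)} {k : ℕ} {z w : ParC N O}

theorem PowK.add (h : PowK (p := p) A k z) (h' : PowK (p := p) A k w) : PowK (p := p) A k (z + w) :=
  fun Λ => by rw [map_add, map_add]; exact (h Λ).add (h' Λ)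

theorem PowK.smul (h : PowK (p := p) A k z) (t : O) : PowK (p := p) A k (t • z) :=
  fun Λ => by rw [coordC_smul]; exact h _

theorem PowK.sub (h : PowK (p := p) A k z) (h' : PowK (p := p) A k w) : PowK (p := p) A k (z - w) := by
  rw [sub_eq_add_neg, ← neg_one_smul O w]
  exact h.add (h'.smul _)

theorem powK_inertia (hA : A.LiesOverPrime p) {τ : GQ} (hτ : τ ∈ A.inertiaSubgroupIn ℚ)
    (z : ParC N O) : PowK (p := p) A k (galC (p := p) O τ z - z) := fun Λ => by
  rw [map_sub, galC, coordC_extC, map_sub, redPow_latGalois]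
  exact GalRep.Ordinary.hasPowRep_inertia hA hτ _

theorem PowK.galois {s : GQ} (hs : s ∈ A.decompositionSubgroup ℚ) (h : PowK (p := p) A k z) :
    PowK (p := p) A k (galC (p := p) O s z) := fun Λ => by
  rw [galC, coordC_extC, redPow_latGalois]
  exact (h Λ).galois hs

variable (O) in
/-- `T_p` on classes with coefficients. -/
def heckeC (hpN : ¬ p ∣ N) : Module.End O (ParC N O) :=
  extC O (latHecke N p ⟨⟨p, Fact.out⟩, hpN⟩)

theorem powK_congruence (hA : A.LiesOverPrime p) (hpN : ¬ p ∣ N) {φ : GQ}
    (hφ : A.IsFrobeniusAt φ p) (z : ParC N O) :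
    PowK (p := p) A k (galC (p := p) O φ (galC (p := p) O φ z) -
      heckeC O hpN (galC (p := p) O φ z) + p • z) := fun Λ => by
  rw [map_add, map_sub, map_nsmul, galC, heckeC, coordC_extC, coordC_extC, coordC_extC, coordC_extC,
    map_add, map_sub, map_nsmul, redPow_latGalois, redPow_latHecke, redPow_latGalois]
  exact GalRep.Ordinary.hasPowRep_congruence hA _ hφ _

variable (hred : KummerReduction N) {S : Finset ℕ}
  (ψ : heckeClosure (latDatum (p := p) hred) (↑S : Set ℕ) →ₐ[ℤ_[p]] O)

/-- A Hecke element as an endomorphism of the lattice. -/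
def asLat (c : heckeClosure (latDatum (p := p) hred) (↑S : Set ℕ)) :
    Module.End ℤ_[p] (GalRep.Lat N p) := c.1

variable (O) in
/-- A Hecke element on classes with coefficients. -/
def actC (c : heckeClosure (latDatum (p := p) hred) (↑S : Set ℕ)) : Module.End O (ParC N O) :=
  extC O (asLat hred c)

/-- An eigen class of the system. -/
def IsEig (z : ParC N O) : Prop :=
  ∀ c : heckeClosure (latDatum (p := p) hred) (↑S : Set ℕ), actC O hred c z = ψ c • z

variable {hred ψ}

theorem IsEig.galois (h : IsEig hred ψ z) (τ : GQ) : IsEig hred ψ (galC (p := p) O τ z) := by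
  intro c
  have hc : (asLat hred c) *
      latGalois (fun k => kummerGalois N (p ^ k)) (kummerCompat N) τ =
        latGalois (fun k => kummerGalois N (p ^ k)) (kummerCompat N) τ * asLat hred c :=
    LinearMap.ext fun x => (Semistable.commute_galois (latDatum (p := p) hred) S τ c x).symm
  rw [actC, galC, ← Module.End.mul_apply, ← map_mul, hc, map_mul, Module.End.mul_apply]
  exact (congrArg _ (h c)).trans (map_smul _ _ _)

theorem IsEig.smul (h : IsEig hred ψ z) (t : O) : IsEig hred ψ (t • z) := fun c => by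
  rw [map_smul, h c, smul_comm]

theorem IsEig.sub (h : IsEig hred ψ z) (h' : IsEig hred ψ w) : IsEig hred ψ (z - w) := fun c => by
  rw [map_sub, h c, h' c, smul_sub]

theorem IsEig.hecke (h : IsEig hred ψ z) (hpN : ¬ p ∣ N) : IsEig hred ψ (heckeC O hpN z) := by
  intro c
  have hc : Commute (asLat hred c)
      (latHecke N p ⟨⟨p, Fact.out⟩, hpN⟩) := by
    have h1 : Commute (c.1 : Module.End ℤ_[p] (latDatum (p := p) hred).L)
        ((latDatum (p := p) hred).hecke (MvPolynomial.X ⟨⟨p, Fact.out⟩, hpN⟩)) := by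
      obtain ⟨c, hc⟩ := c
      induction hc using Algebra.adjoin_induction with
      | mem x hx =>
        obtain ⟨i, rfl⟩ := hx
        exact (Commute.all _ _).map _
      | algebraMap r => exact Algebra.commutes r _
      | add x y _ _ hx hy => exact Commute.add_left hx hy
      | mul x y _ _ hx hy => exact Commute.mul_left hx hy
    rw [← latHeckePoly_gen]
    exact h1
  rw [actC, heckeC, ← Module.End.mul_apply, ← map_mul, hc.eq, map_mul, Module.End.mul_apply]
  exact (congrArg _ (h c)).trans (map_smul _ _ _)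

theorem galC_heckeC (hpN : ¬ p ∣ N) (τ : GQ) (z : ParC N O) :
    galC (p := p) O τ (heckeC O hpN z) = heckeC O hpN (galC (p := p) O τ z) := by
  have hc := (latDatum (p := p) (N := N) (Model.kummerReduction N)).galois_hecke τ
    (MvPolynomial.X ⟨⟨p, Fact.out⟩, hpN⟩)
  have hc' : latGalois (fun k => kummerGalois N (p ^ k)) (kummerCompat N) τ *
      latHeckePoly N p (MvPolynomial.X ⟨⟨p, Fact.out⟩, hpN⟩) =
      latHeckePoly N p (MvPolynomial.X ⟨⟨p, Fact.out⟩, hpN⟩) *
      latGalois (fun k => kummerGalois N (p ^ k)) (kummerCompat N) τ := hc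
  rw [latHeckePoly_gen] at hc'
  rw [galC, heckeC, ← Module.End.mul_apply, ← map_mul, hc', map_mul, Module.End.mul_apply]

variable (O p) in
/-- The cyclotomic character with values in the coefficients. -/
def cO (g : GQ) : O := algebraMap ℤ_[p] O (cyc p g : ℤ_[p])

variable {r : GQ →* Mat2 O}
  (htr : ∀ g, (r g).trace =
    ψ ⟨uTrace (latDatum hred) g, uTrace_mem (latDatum hred) frobeniusPowDensity S g⟩)

include htr

/-- The quadratic relation on eigen classes. -/
theorem IsEig.quad (h : IsEig hred ψ z) (g : GQ) :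
    galC (p := p) O g (galC (p := p) O g z) + cO p O g • z = (r g).trace • galC (p := p) O g z := by
  have h1 : galC (p := p) O g z + cO p O g • galC (p := p) O g⁻¹ z = (r g).trace • z := by
    rw [htr, ← h, actC]
    show _ = extC O (latGalois (fun k => kummerGalois N (p ^ k)) (kummerCompat N) g +
      (cyc p g : ℤ_[p]) • latGalois (fun k => kummerGalois N (p ^ k)) (kummerCompat N) g⁻¹) z
    rw [map_add, Algebra.smul_def, map_mul, LinearMap.add_apply, Module.End.mul_apply,
      extC_algebraMap]
    rfl
  have h2 := congrArg (galC (p := p) O g) h1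
  rwa [map_add, map_smul, map_smul, galC_inv] at h2

variable (hpN : ¬ p ∣ N) (hA : A.LiesOverPrime p)
  (hlow : ∀ σ ∈ A.decompositionSubgroup ℚ, r σ 1 0 = 0)
  (hunr : ∀ σ ∈ A.inertiaSubgroupIn ℚ, r σ 1 1 = 1)
  (hdet : ∀ σ : GQ, (r σ).det = cO p O σ)
  {σ : GQ} (hσ : σ ∈ A.inertiaSubgroupIn ℚ) (hc : IsUnit (1 - cO p O σ))

include hA hlow hunr hdet hσ

theorem trace_inertia : (r σ).trace = cO p O σ + 1 := by
  have hd := hdet σ
  rw [Matrix.det_fin_two, hlow σ (inertia_le_dec hσ), hunr σ hσ, mul_one, mul_zero, sub_zero] at hd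
  rw [Matrix.trace_fin_two, hd, hunr σ hσ]

/-- The fixed part of an eigen class. -/
theorem IsEig.fixed (h : IsEig hred ψ z) :
    galC (p := p) O σ (galC (p := p) O σ z - cO p O σ • z) = galC (p := p) O σ z - cO p O σ • z := by
  have h1 := h.quad htr σ
  rw [trace_inertia htr hA hlow hunr hdet hσ, add_smul, one_smul] at h1
  rw [map_sub, map_smul, sub_eq_sub_iff_add_eq_add, h1, add_comm]

include hc

/-- Frobenius on the fixed part is the unit root up to classes with power reductions. -/
theorem exists_frobenius_fixed {φ : GQ} (hφ : A.IsFrobeniusAt φ p) {x : ParC N O}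
    (hx : IsEig hred ψ x) (hfix : galC (p := p) O σ x = x) :
    ∃ y : ParC N O, (∀ k, PowK (p := p) A k y) ∧ galC (p := p) O φ x = r φ 1 1 • x + y := by
  obtain ⟨u, hu⟩ := hc.exists_left_inv
  set y := galC (p := p) O φ x with hy
  set y2 := u • (y - galC (p := p) O σ y) with hy2
  have hE := hx.galois φ
  have e2 : galC (p := p) O σ y = y - (1 - cO p O σ) • y2 := by
    rw [hy2, smul_smul, mul_comm, hu, one_smul, sub_sub_cancel]
  have hφσ : galC (p := p) O (φ * σ) x = y := by rw [galC_mul, hfix]
  have h1 := hx.quad htr (φ * σ)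
  rw [hφσ, galC_mul, e2, map_sub, map_smul] at h1
  have h2 := hx.quad htr φ
  rw [← hy] at h2
  have hdφ := hdet φ
  rw [Matrix.det_fin_two, hlow φ hφ.1, mul_zero, sub_zero] at hdφ
  have hd := hdet σ
  rw [Matrix.det_fin_two, hlow σ (inertia_le_dec hσ), hunr σ hσ, mul_one, mul_zero, sub_zero] at hd
  have t1 : (r (φ * σ)).trace = r φ 0 0 * cO p O σ + r φ 1 1 := by
    rw [map_mul, Matrix.trace_fin_two, Matrix.mul_apply, Matrix.mul_apply, Fin.sum_univ_two,
      Fin.sum_univ_two, hlow σ (inertia_le_dec hσ), hlow φ hφ.1, hunr σ hσ, hd]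
    ring
  have t2 : cO p O (φ * σ) = cO p O φ * cO p O σ := by
    show algebraMap ℤ_[p] O _ = algebraMap ℤ_[p] O _ * algebraMap ℤ_[p] O _
    rw [map_mul, Units.val_mul, map_mul]
  rw [t1, t2] at h1
  rw [Matrix.trace_fin_two] at h2
  have key : (1 - cO p O σ) • galC (p := p) O φ (y - y2) = (1 - cO p O σ) • r φ 1 1 • y := by
    rw [map_sub, smul_sub]
    rw [← sub_eq_zero] at h1 h2 ⊢
    linear_combination (norm := module) h1 - (cO p O σ) • h2
  have key' : y - y2 = r φ 1 1 • x := by
    have h3 := congrArg (fun v => u • v) key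
    rw [smul_smul, smul_smul u, smul_smul, mul_assoc, ← mul_assoc u, hu, one_mul, one_smul] at h3
    have h4 := congrArg (galC (p := p) O φ⁻¹) h3
    rwa [map_smul, hy, ← galC_mul, ← galC_mul, inv_mul_cancel, galC_one, galC_one] at h4
  refine ⟨y2, fun k => ?_, by rw [← key', sub_add_cancel]⟩
  rw [hy2, ← neg_sub, smul_neg, ← neg_smul]
  exact (powK_inertia hA hσ y).smul _

include hpN

/-- The defect of the unit root on a fixed class has power reductions. -/
theorem powK_defect {φ : GQ} (hφ : A.IsFrobeniusAt φ p) {x : ParC N O}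
    (hx : IsEig hred ψ x) (hfix : galC (p := p) O σ x = x) (k : ℕ) :
    PowK (p := p) A k
      (r φ 1 1 • heckeC O hpN x - (r φ 1 1 ^ 2 + (p : O)) • x) := by
  obtain ⟨y, hy, he⟩ := exists_frobenius_fixed htr hA hlow hunr hdet hσ hc hφ hx hfix
  obtain ⟨y', hy', he'⟩ := exists_frobenius_fixed htr hA hlow hunr hdet hσ hc hφ (hx.hecke hpN)
    (by rw [galC_heckeC, hfix])
  have h := powK_congruence (k := k) hA hpN hφ x
  rw [← galC_heckeC hpN φ x, he', he, map_add, map_smul, he] at h
  have h2 := (((hy k).smul (r φ 1 1)).add ((hy k).galois hφ.1)).sub (hy' k)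
  have h3 := (h2.sub h)
  convert h3 using 1
  rw [← Nat.cast_smul_eq_nsmul O p x]
  module

end Fermat.Agent.R59.Raised
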