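/-
Eigen classes at a level `N` prime to `p`: one fixed by a moving element of inertia with power
reductions modulo every `p ^ k` is zero, one moved through the character with all its translates is
zero; hence `α T_p = α² + p`.
-/
import Fermat.Agent.R59.Raised.PRoot.Local

set_option autoImplicit false
set_option linter.style.haveILetI false
set_option linter.unusedSectionVars false
set_option maxHeartbeats 800000

noncomputable section

namespace Fermat.Agent.R59.Raised

open CongruenceSubgroup IsLocalRing MulOpposite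
open Fermat.Agent.Galois (GQ)
open Fermat.Agent.Deform (Mat2 mapHom TraceNondeg)
open Fermat.Agent.GalRep
open Fermat.Agent.GalRep.Ordinary (latDatum HasPowRep powKer red1 redD gD ringAct omegaNat resR)
open scoped MatrixGroups IsMulCommutative

attribute [local instance] GalRep.Ordinary.neZero_pow

local notation "ℚb" => AlgebraicClosure ℚ

variable {N p : ℕ} [Fact p.Prime] [NeZero p] [NeZero N] [NeZero (p * N)]
  {O : Type} [CommRing O] [IsDomain O] [IsDiscreteValuationRing O]
  [IsAdicComplete (maximalIdeal O) O] [Finite (ResidueField O)] [Algebra ℤ_[p] O]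
  [Module.Finite ℤ_[p] O] [Module.Free ℤ_[p] O]

/-- A nonzero class is a power of a uniformiser times a primitive one. -/
theorem exists_primitive {ϖ : O} (hϖ : Irreducible ϖ) {w : ParC N O} (hw : w ≠ 0) :
    ∃ (a : ℕ) (w' : ParC N O), w = ϖ ^ a • w' ∧
      ∃ x, IsUnit ((w' : Additive (Gamma0 N) →+ O) x) := by
  classical
  obtain ⟨x₀, hx₀⟩ : ∃ x, (w : Additive (Gamma0 N) →+ O) x ≠ 0 := by
    by_contra h
    push Not at h
    exact hw (Subtype.ext (AddMonoidHom.ext h))
  have hex : ∃ a : ℕ, ∃ x, ¬ ϖ ^ (a + 1) ∣ (w : Additive (Gamma0 N) →+ O) x := by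
    obtain ⟨n, u, hu⟩ := IsDiscreteValuationRing.eq_unit_mul_pow_irreducible hx₀ hϖ
    refine ⟨n, x₀, fun h => ?_⟩
    rw [hu, mul_comm, pow_succ] at h
    exact hϖ.not_isUnit (isUnit_of_dvd_unit
      ((mul_dvd_mul_iff_left (pow_ne_zero n hϖ.ne_zero)).mp h) u.isUnit)
  obtain ⟨x₁, hx₁⟩ := Nat.find_spec hex
  set a := Nat.find hex
  have hdvd : ∀ x, ϖ ^ a ∣ (w : Additive (Gamma0 N) →+ O) x := fun x => by
    rcases Nat.eq_zero_or_pos a with h0 | hpos
    · rw [h0, pow_zero]; exact one_dvd _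
    · have := Nat.find_min hex (show a - 1 < a by omega)
      push Not at this
      have h1 := this x
      rwa [Nat.sub_add_cancel hpos] at h1
  choose q hq using hdvd
  have hp := pow_ne_zero a hϖ.ne_zero
  refine ⟨a, ⟨AddMonoidHom.mk' q fun s t => mul_left_cancel₀ hp (by
      rw [mul_add, ← hq, ← hq, ← hq, map_add]), fun γ hγ => mul_left_cancel₀ hp (by
      show ϖ ^ a * q (Additive.ofMul γ) = _
      rw [← hq, w.2 γ hγ, mul_zero])⟩, Subtype.ext (AddMonoidHom.ext hq), x₁, ?_⟩
  refine notMem_maximalIdeal.mp fun hm => hx₁ ?_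
  rw [hϖ.maximalIdeal_eq, Ideal.mem_span_singleton] at hm
  rw [hq x₁, pow_succ]
  exact mul_dvd_mul_left _ hm

omit [NeZero p] [NeZero (p * N)] in
theorem eq_of_smul_eq {t : O} (ht : t ≠ 0) {v w : ParC N O} (h : t • v = t • w) : v = w :=
  Subtype.ext (AddMonoidHom.ext fun x =>
    mul_left_cancel₀ ht (DFunLike.congr_fun (congrArg Subtype.val h) x))

variable [CharP (ResidueField O) p]

/-- A functional of the coefficients detecting a unit, killing the maximal ideal modulo `p`. -/
theorem exists_detect {u : O} (hu : IsUnit u) : ∃ Λ : O →ₗ[ℤ_[p]] ℤ_[p],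
    (∀ x ∈ maximalIdeal O, PadicInt.toZMod (Λ x) = 0) ∧ PadicInt.toZMod (Λ u) ≠ 0 := by
  letI : Algebra (ZMod p) (ResidueField O) := ZMod.algebra _ _
  have hp : (p : O) ∈ maximalIdeal O := by
    rw [← residue_eq_zero_iff, map_natCast, CharP.cast_eq_zero]
  have hru : residue O u ≠ 0 := (residue_ne_zero_iff_isUnit _).mpr hu
  obtain ⟨μ, hμ⟩ : ∃ μ : ResidueField O →ₗ[ZMod p] ZMod p, μ (residue O u) ≠ 0 := by
    by_contra h
    push Not at h
    exact hru ((Module.forall_dual_apply_eq_zero_iff (ZMod p) _).mp h)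
  have hsc : ∀ (a : ℤ_[p]) (x : O),
      residue O (a • x) = (PadicInt.toZMod a) • residue O x := by
    intro a x
    obtain ⟨b, hb⟩ : (p : ℤ_[p]) ∣ a - ((PadicInt.toZMod a).val : ℤ_[p]) := by
      rw [← Ideal.mem_span_singleton, ← PadicInt.maximalIdeal_eq_span_p, ← PadicInt.ker_toZMod,
        RingHom.mem_ker, map_sub, map_natCast, ZMod.natCast_zmod_val, sub_self]
    rw [Algebra.smul_def, Algebra.smul_def, map_mul]
    congr 1
    conv_lhs => rw [eq_add_of_sub_eq hb]
    rw [map_add, map_mul, map_natCast, map_add, map_mul, (residue_eq_zero_iff _).mpr hp, zero_mul,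
      zero_add, map_natCast, map_natCast, ← map_natCast (algebraMap (ZMod p) (ResidueField O)),
      ZMod.natCast_zmod_val]
  let b := Module.Free.chooseBasis ℤ_[p] O
  let Λ : O →ₗ[ℤ_[p]] ℤ_[p] := b.constr ℤ_[p] fun i => ((μ (residue O (b i))).val : ℤ_[p])
  have hΛ : ∀ x, PadicInt.toZMod (Λ x) = μ (residue O x) := by
    intro x
    conv_rhs => rw [← b.sum_repr x]
    rw [map_sum, map_sum, ← b.sum_repr x, map_sum, map_sum]
    refine Finset.sum_congr rfl fun i _ => ?_
    rw [b.sum_repr, map_smul, smul_eq_mul, map_mul, hsc, map_smul, smul_eq_mul,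
      Module.Basis.constr_basis, map_natCast, ZMod.natCast_zmod_val]
  exact ⟨Λ, fun x hx => by rw [hΛ, (residue_eq_zero_iff _).mpr hx, map_zero], by rwa [hΛ]⟩

section Main

variable (hred : KummerReduction N) (hred' : KummerReduction (p * N)) (hpN : ¬ p ∣ N)
  {S : Finset ℕ} {ψ : heckeClosure (latDatum (p := p) hred) (↑S : Set ℕ) →ₐ[ℤ_[p]] O}
  {π : heckeClosure (latDatum (p := p) hred') (↑S : Set ℕ) →ₐ[ℤ_[p]]
    heckeClosure (latDatum (p := p) hred) (↑S : Set ℕ)}
  (hπ : ∀ (c : heckeClosure (latDatum (p := p) hred') (↑S : Set ℕ))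
    (v : (latDatum (p := p) hred).L),
    ((c : Module.End ℤ_[p] (latDatum (p := p) hred').L) (resLat (v : GalRep.Lat N p)) :
        GalRep.Lat (p * N) p) =
      resLat (((π c : Module.End ℤ_[p] (latDatum (p := p) hred).L) v : GalRep.Lat N p)))
  {r : GQ →* Mat2 O}
  (htr : ∀ g, (r g).trace =
    ψ.comp π ⟨uTrace (latDatum hred') g, uTrace_mem (latDatum hred') frobeniusPowDensity S g⟩)
  {A : ValuationSubring (AlgebraicClosure ℚ)} (hA : A.LiesOverPrime p)
  (hnd : TraceNondeg ((mapHom (residue O)).comp r)) (hord : GalRep.Ordinary.IsResOrd p r A)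
  (hp2 : p ≠ 2) {σ : GQ} (hσ : σ ∈ A.inertiaSubgroupIn ℚ)
  (hω : PadicInt.toZMod (cyc p σ : ℤ_[p]) ≠ 1) {w : ParC N O} (hw : IsEig hred ψ w)

include hπ htr hA hnd hord hp2 hσ hω hw hpN

theorem socle_of_eig {Λ : O →ₗ[ℤ_[p]] ℤ_[p]}
    (hΛ : ∀ x ∈ maximalIdeal O, PadicInt.toZMod (Λ x) = 0)
    (c : heckeClosure (latDatum (p := p) hred') (↑S : Set ℕ))
    (hc : ψ.comp π c ∈ maximalIdeal O) :
    redD hred' ((c : Module.End ℤ_[p] (latDatum (p := p) hred').L)
      (resLat (coordC Λ w) : (latDatum (p := p) hred').L)) = 0 := by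
  show red1 _ = 0
  erw [hπ c (coordC Λ w)]
  show resR (dvd_mul_left N p) (red1 (asLat hred (π c) (coordC Λ w))) = 0
  rw [← coordC_extC, ← actC, hw (π c)]
  refine (congrArg _ ?_).trans (map_zero (resR (A := ZMod p) (dvd_mul_left N p)))
  refine Subtype.ext (AddMonoidHom.ext fun x => ?_)
  rw [GalRep.Ordinary.red1_apply, coordC_apply]
  exact hΛ _ (Ideal.mul_mem_right _ _ hc)

/-- A fixed eigen class with power reductions modulo every power of `p` vanishes. -/
theorem eq_zero_of_powK (hfix : galC (p := p) O σ w = w) (hK : ∀ k, PowK (p := p) A k w) :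
    w = 0 := by
  by_contra h0
  obtain ⟨ϖ, hϖ⟩ := IsDiscreteValuationRing.exists_irreducible O
  obtain ⟨a, w', rfl, x₀, hx₀⟩ := exists_primitive hϖ h0
  have hp0 : ϖ ^ a ≠ 0 := pow_ne_zero a hϖ.ne_zero
  have hw' : IsEig hred ψ w' := fun c => eq_of_smul_eq hp0 (by
    show ϖ ^ a • actC O hred c w' = ϖ ^ a • ψ c • w'
    rw [← map_smul, hw c, smul_comm])
  have hfix' : galC (p := p) O σ w' = w' := eq_of_smul_eq hp0 (by
    show ϖ ^ a • galC (p := p) O σ w' = ϖ ^ a • w'
    rw [← map_smul, hfix])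
  obtain ⟨Λ, hΛ, hΛu⟩ := exists_detect (p := p) hx₀
  obtain ⟨e, he⟩ : ∃ e : O, (p : O) ^ a = e * ϖ ^ a := by
    have hp : (p : O) ∈ maximalIdeal O := by
      rw [← residue_eq_zero_iff, map_natCast, CharP.cast_eq_zero]
    rw [hϖ.maximalIdeal_eq, Ideal.mem_span_singleton] at hp
    obtain ⟨d, hd⟩ := hp
    exact ⟨d ^ a, by rw [hd, mul_pow, mul_comm]⟩
  obtain ⟨g, hg⟩ := Period.exists_bottom_row (N : ℤ) (p : ℤ)
    (Nat.Coprime.isCoprime ((Fact.out : p.Prime).coprime_iff_not_dvd.mpr hpN)).symm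
  set v : GalRep.Lat (p * N) p := resLat (coordC Λ w')
  have hK1 : redPow (a + 1) ((p ^ a : ℤ_[p]) • v) ∈ powKer A p N (p ^ (a + 1)) := by
    have h1 := ((hK (a + 1)).smul e) Λ
    rw [smul_smul, ← he, show (p : O) ^ a = algebraMap ℤ_[p] O ((p : ℤ_[p]) ^ a) by
      rw [map_pow, map_natCast], ← extC_algebraMap, coordC_extC, Module.algebraMap_end_apply] at h1
    rw [← map_smul, redPow_resLat, GalRep.Ordinary.mem_powKer_iff hg hA]
    exact ⟨h1.res _, h1.alR_res hg⟩
  have hK0 : red1 v ∈ powKer A p N p := by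
    rw [← GalRep.Ordinary.parMap_torsIota_red1] at hK1
    obtain ⟨ξ, hξ, hξe⟩ := GalRep.Ordinary.exists_powKer_torsion hg hA a (by
      rw [← map_nsmul, Semistable.parHom_nsmul_self, map_zero]) hK1
    convert hξ using 1
    refine Subtype.ext (AddMonoidHom.ext fun x => ZMod.injective_stdAddChar ?_)
    have h2 := DFunLike.congr_fun (congrArg Subtype.val hξe) x
    rw [parMap_apply, parMap_apply] at h2
    exact ((GalRep.Ordinary.stdAddChar_torsIota (p := p) a _).symm.trans
      (congrArg _ h2.symm)).trans (GalRep.Ordinary.stdAddChar_torsIota (p := p) a _)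
  have hfixv : (kummerGalois (p * N) p).galois σ (red1 v) = red1 v := by
    rw [← GalRep.Ordinary.red1_galois hred']
    erw [← resLat_galois hred hred']
    show red1 (resLat (latGalois _ _ σ (coordC Λ w'))) = _
    rw [← coordC_extC, ← galC, hfix']
  have h1 := GalRep.Ordinary.redD_eq_zero_of_socle hg hA hred' (ψ.comp π)
    (GalRep.Ordinary.noOrdInKer hp2 hpN) hnd htr hord hσ hω
    (w := (v : (latDatum (p := p) hred').L))
    (fun c hc => socle_of_eig hred hred' hpN hπ htr hA hnd hord hp2 hσ hω hw' hΛ c hc) hfixv hK0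
  have h2 : red1 (coordC Λ w') = 0 := resR_injective hpN (by
    rw [← red1_resLat, map_zero]; exact h1)
  refine hΛu ?_
  rw [← coordC_apply Λ w' x₀, ← GalRep.Ordinary.red1_apply, h2]
  rfl

/-- An eigen class moved through the character with all its translates vanishes. -/
theorem eq_zero_of_moved
    (hmov : ∀ g : GQ, galC (p := p) O σ (galC (p := p) O g w) =
      cO p O σ • galC (p := p) O g w) : w = 0 := by
  by_contra h0
  obtain ⟨ϖ, hϖ⟩ := IsDiscreteValuationRing.exists_irreducible O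
  obtain ⟨a, w', rfl, x₀, hx₀⟩ := exists_primitive hϖ h0
  have hp0 : ϖ ^ a ≠ 0 := pow_ne_zero a hϖ.ne_zero
  have hw' : IsEig hred ψ w' := fun c => eq_of_smul_eq hp0 (by
    show ϖ ^ a • actC O hred c w' = ϖ ^ a • ψ c • w'
    rw [← map_smul, hw c, smul_comm])
  have hmov' : ∀ g : GQ, galC (p := p) O σ (galC (p := p) O g w') =
      cO p O σ • galC (p := p) O g w' := fun g => eq_of_smul_eq hp0 (by
    show ϖ ^ a • galC (p := p) O σ (galC (p := p) O g w') = ϖ ^ a • cO p O σ • _
    rw [← map_smul, ← map_smul, hmov g, map_smul, smul_comm])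
  obtain ⟨Λ, hΛ, hΛu⟩ := exists_detect (p := p) hx₀
  let v : (latDatum (p := p) hred').L := resLat (coordC Λ w')
  let D' := latDatum (p := p) hred'
  obtain ⟨g₀, hab⟩ := hord.exists_commutator hnd hσ (GalRep.Ordinary.natCast_omega_ne_one hω)
  have kill : ∀ X : MonoidAlgebra ℤ GQ, GalRep.Ordinary.gK r X = 0 →
      ringAct (p := p) (p * N) X (redD hred' v) = 0 := by
    intro X hX
    obtain ⟨w₁, hw₁⟩ := GalRep.Ordinary.gD_mem_of_residual D' S (ψ.comp π) htr hab hX (v := v)
      fun c hc => (GalRep.Ordinary.redD_eq_zero_iff hred').mp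
        (socle_of_eig hred hred' hpN hπ htr hA hnd hord hp2 hσ hω hw' hΛ c hc)
    rw [← GalRep.Ordinary.redD_gD hred', show gD D' X v = (p : ℤ_[p]) • w₁ from hw₁]
    exact (GalRep.Ordinary.redD_eq_zero_iff hred').mpr ⟨w₁, rfl⟩
  -- every element of the group ring gives a moved vector
  have hgal : ∀ (g : GQ) (z : ParC N O),
      (resLat (coordC Λ (galC (p := p) O g z)) : D'.L) = D'.galois g (resLat (coordC Λ z)) :=
    fun g z => by
      rw [galC, coordC_extC]
      exact resLat_galois hred hred' g _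
  have hX : ∀ X : MonoidAlgebra ℤ GQ,
      D'.galois σ (gD D' X v) = (cyc p σ : ℤ_[p]) • gD D' X v := by
    intro X
    induction X using MonoidAlgebra.induction_on with
    | of g =>
      rw [GalRep.Ordinary.gD_of, ← hgal, ← hgal, hmov', cO,
        ← extC_algebraMap, coordC_extC, Module.algebraMap_end_apply, map_smul]
      rfl
    | add X Y hX hY => rw [map_add, LinearMap.add_apply, map_add, hX, hY, smul_add]
    | smul t X hX => rw [map_zsmul, LinearMap.smul_apply, map_zsmul, hX, smul_comm]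
  have hXr : ∀ X : MonoidAlgebra ℤ GQ, (kummerGalois (p * N) p).galois σ
      (ringAct (p * N) X (redD hred' v)) =
        omegaNat (p := p) σ • ringAct (p * N) X (redD hred' v) := fun X => by
    rw [← GalRep.Ordinary.redD_gD hred', ← GalRep.Ordinary.redD_galois, hX,
      GalRep.Ordinary.redD_smul]
    rfl
  have hM := GalRep.Ordinary.isOrdModule_range (redD hred' v) hnd hord kill
  obtain ⟨X, Y, hXY⟩ := hM.exchange σ hσ hω
  obtain ⟨hY1, hY2⟩ := (hXY _ ⟨1, rfl⟩).2 (hXr 1)
  change ringAct (p * N) X (ringAct (p * N) Y (ringAct (p * N) 1 (redD hred' v))) =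
    ringAct (p * N) 1 (redD hred' v) at hY2
  change (kummerGalois (p * N) p).galois σ (ringAct (p * N) Y (ringAct (p * N) 1 (redD hred' v))) =
    ringAct (p * N) Y (ringAct (p * N) 1 (redD hred' v)) at hY1
  rw [map_one, Module.End.one_apply] at hY1 hY2
  have hY0 : ringAct (p * N) Y (redD hred' v) = 0 :=
    GalRep.Ordinary.eq_zero_of_sub_nsmul (k := omegaNat (p := p) σ)
      (by rwa [GalRep.Ordinary.natCast_omegaNat]) (by rw [← hXr Y, hY1, sub_self])
  rw [hY0, map_zero] at hY2
  have h2 : red1 (coordC Λ w') = 0 := resR_injective hpN (by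
    rw [← red1_resLat, map_zero]; exact hY2.symm)
  refine hΛu ?_
  rw [← coordC_apply Λ w' x₀, ← GalRep.Ordinary.red1_apply, h2]
  rfl

end Main

end Fermat.Agent.R59.Raised
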